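import Fermat.Agent.S27.K.Basic

/-!
# Project S27, block K: all large `n` are pole numbers at `P`
-/

set_option autoImplicit false

namespace Fermat.Agent.S27.K

open AlgebraicCurve

universe u v

variable {k : Type u} {F : Type v} [Field k] [Field F] [Algebra k F]

theorem nonempty_place (h : CurveHyp k F) : Nonempty (Place k F) := by
  obtain ⟨B, γ, hB, -⟩ := h.riemann
  by_contra hne
  rw [not_nonempty_iff] at hne
  have hB0 : B = 0 := by
    ext v
    exact (hne.false v).elim
  rw [hB0, map_zero] at hB
  exact lt_irrefl _ hB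

theorem PoleNum.zero (P : Place k F) : PoleNum P 0 :=
  ⟨1, one_ne_zero, Reg.one P, by simp⟩

theorem PoleNum.add {P : Place k F} {a b : ℕ} (ha : PoleNum P a) (hb : PoleNum P b) :
    PoleNum P (a + b) := by
  obtain ⟨f, hf, hfr, hfo⟩ := ha
  obtain ⟨g, hg, hgr, hgo⟩ := hb
  refine ⟨f * g, mul_ne_zero hf hg, hfr.mul hgr, ?_⟩
  rw [P.ord_mul hf hg, hfo, hgo]
  push_cast
  ring

private theorem Gaps_single_ne (P v : Place k F) (hv : v ≠ P) (n : ℤ) :
    (Finsupp.single P n : Divisor k F) v = 0 := by
  classical
  rw [Finsupp.single_apply, if_neg (fun h => hv h.symm)]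

private theorem Gaps_single_same (P : Place k F) (n : ℤ) :
    (Finsupp.single P n : Divisor k F) P = n := by
  classical
  rw [Finsupp.single_apply, if_pos rfl]

private theorem Gaps_ell_single (h : BaseHyp k F) (hRR : RRPackage k F) (P : Place k F)
    {W : Divisor k F} (hW : ∀ D : Divisor k F, Module.finrank k (H1 D) = ell (W - D))
    (n : ℤ) (hn : Divisor.degree W < n) :
    (ell (Finsupp.single P n : Divisor k F) : ℤ) = n + 1 - (genusFF k F : ℤ) := by
  have hdeg : Divisor.degree (Finsupp.single P n : Divisor k F) = n := by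
    rw [Divisor.degree_single, deg_eq_one h P]
    simp
  have h1 : ell (W - (Finsupp.single P n : Divisor k F)) = 0 := by
    apply ell_eq_zero_of_degree_neg h
    rw [map_sub, hdeg]
    omega
  have h2 := hRR.riemann (Finsupp.single P n : Divisor k F)
  rw [hW, h1, hdeg] at h2
  simpa using h2

theorem exists_poleNum_bound (h : BaseHyp k F) (hRR : RRPackage k F) (P : Place k F) :
    ∃ n₀ : ℕ, ∀ n, n₀ ≤ n → PoleNum P n := by
  obtain ⟨W, hW⟩ := hRR.duality
  refine ⟨(Divisor.degree W).toNat + 2, fun n hn => ?_⟩
  have hWn : Divisor.degree W < (n : ℤ) - 1 := by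
    have := Int.self_le_toNat (Divisor.degree W)
    omega
  have e1 := Gaps_ell_single h hRR P hW (n : ℤ) (by omega)
  have e2 := Gaps_ell_single h hRR P hW ((n : ℤ) - 1) hWn
  set D1 : Divisor k F := Finsupp.single P (n : ℤ) with hD1
  set D0 : Divisor k F := Finsupp.single P ((n : ℤ) - 1) with hD0
  have hle : riemannRochSpace D0 ≤ riemannRochSpace D1 := by
    intro f hf
    rw [mem_riemannRochSpace_iff] at hf ⊢
    intro v
    rcases hf v with h0 | h0
    · exact Or.inl h0
    · right
      by_cases hv : v = P
      · subst hv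
        rw [hD0, Gaps_single_same] at h0
        rw [hD1, Gaps_single_same]
        omega
      · rw [hD0, Gaps_single_ne P v hv] at h0
        rw [hD1, Gaps_single_ne P v hv]
        exact h0
  have hlt : riemannRochSpace D0 < riemannRochSpace D1 := by
    refine lt_of_le_of_ne hle fun heq => ?_
    have : ell D0 = ell D1 := by unfold ell; rw [heq]
    omega
  obtain ⟨f, hf1, hf0⟩ := SetLike.exists_of_lt hlt
  have hfne : f ≠ 0 := by
    rintro rfl
    exact hf0 (Submodule.zero_mem _)
  rw [mem_riemannRochSpace_iff] at hf1 hf0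
  have hreg : Reg P f := by
    intro v hv
    rcases hf1 v with h0 | h0
    · exact absurd h0 hfne
    · rw [hD1, Gaps_single_ne P v hv] at h0
      simpa using h0
  have hP1 : -(n : ℤ) ≤ P.ord f := by
    rcases hf1 P with h0 | h0
    · exact absurd h0 hfne
    · rw [hD1, Gaps_single_same] at h0
      exact h0
  refine ⟨f, hfne, hreg, ?_⟩
  by_contra hne
  apply hf0
  intro v
  right
  by_cases hv : v = P
  · subst hv
    rw [hD0, Gaps_single_same]
    omega
  · rw [hD0, Gaps_single_ne P v hv]
    simpa using hreg v hv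

end Fermat.Agent.S27.K
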