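import Fermat.Agent.S27.K.Defs

/-!
# Project S27, block K: shape of a numerical semigroup, table of coefficients
-/

set_option autoImplicit false

namespace Fermat.Agent.S27.K

open AlgebraicCurve

universe u v

variable {k : Type u} {F : Type v} [Field k] [Field F] [Algebra k F]

theorem exists_shape (H : ℕ → Prop) (h0 : H 0) (hadd : ∀ a b, H a → H b → H (a + b))
    (n₀ : ℕ) (hn₀ : ∀ n, n₀ ≤ n → H n) :
    ∃ s : Shape, H s.m ∧ (∀ j, H (s.b j)) ∧
      ∀ n, H n → ∃ (j : Fin s.m) (a : ℕ), n = a * s.m + s.b j := by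
  classical
  have hex : ∃ n, 0 < n ∧ H n := ⟨n₀ + 1, Nat.succ_pos _, hn₀ _ (Nat.le_succ _)⟩
  obtain ⟨m, hm⟩ : ∃ m, m = Nat.find hex := ⟨_, rfl⟩
  have hmpos : 0 < m := hm ▸ (Nat.find_spec hex).1
  have hHm : H m := hm ▸ (Nat.find_spec hex).2
  have hexb : ∀ j : Fin m, ∃ n, H n ∧ n % m = j := by
    intro j
    refine ⟨n₀ * m + j, hn₀ _ ?_, ?_⟩
    · calc n₀ = n₀ * 1 := (mul_one _).symm
        _ ≤ n₀ * m := Nat.mul_le_mul_left _ hmpos
        _ ≤ n₀ * m + j := Nat.le_add_right _ _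
    · rw [Nat.mul_add_mod_of_lt j.2]
  have hbH : ∀ j : Fin m, H (Nat.find (hexb j)) := fun j => (Nat.find_spec (hexb j)).1
  have hbmod : ∀ j : Fin m, Nat.find (hexb j) % m = j := fun j => (Nat.find_spec (hexb j)).2
  have hbmin : ∀ (j : Fin m) (n : ℕ), H n → n % m = j → Nat.find (hexb j) ≤ n :=
    fun j n h1 h2 => Nat.find_min' (hexb j) ⟨h1, h2⟩
  refine ⟨⟨m, fun j => Nat.find (hexb j), hmpos, hbmod, ?_, ?_⟩, hHm, hbH, ?_⟩
  · intro j hj
    have := hbmin j 0 h0 (by rw [Nat.zero_mod, hj])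
    exact Nat.le_zero.1 this
  · intro i j l hl
    apply hbmin l _ (hadd _ _ (hbH i) (hbH j))
    rw [Nat.add_mod, hbmod i, hbmod j, hl]
  · intro n hn
    let j : Fin m := ⟨n % m, Nat.mod_lt _ hmpos⟩
    have hle : Nat.find (hexb j) ≤ n := hbmin j n hn rfl
    have hmodeq : Nat.find (hexb j) ≡ n [MOD m] := hbmod j
    have hdvd : m ∣ n - Nat.find (hexb j) := (Nat.modEq_iff_dvd' hle).1 hmodeq
    obtain ⟨a, ha⟩ := hdvd
    refine ⟨j, a, ?_⟩
    show n = a * m + Nat.find (hexb j)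
    rw [mul_comm a m, ← ha, Nat.sub_add_cancel hle]

theorem exists_table (s : Shape) (p : Fin s.m → Fin s.m → Fin s.m → Polynomial k)
    (hp : ∀ i j l, (p i j l).natDegree < s.T) :
    ∃ c : Table s k, ∀ i j l, c.poly i j l = p i j l := by
  refine ⟨fun i j l t => (p i j l).coeff t, fun i j l => ?_⟩
  unfold Table.poly
  conv_rhs => rw [Polynomial.as_sum_range' (p i j l) s.T (hp i j l)]
  rw [← Fin.sum_univ_eq_sum_range (fun t => Polynomial.monomial t ((p i j l).coeff t)) s.T]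
  refine Finset.sum_congr rfl fun t _ => ?_
  rw [Polynomial.C_mul_X_pow_eq_monomial]

end Fermat.Agent.S27.K
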