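import Fermat.Agent.S27.K.Basic

/-!
# Project S27, block K: expansion `f = ∑ p_j(x) y_j` with degree bounds
-/

set_option autoImplicit false

namespace Fermat.Agent.S27.K

open AlgebraicCurve

universe u v

variable {k : Type u} {F : Type v} [Field k] [Field F] [Algebra k F]

theorem Span_ord_pow (v : Place k F) (f : F) (n : ℕ) : v.ord (f ^ n) = n * v.ord f := by
  have := v.ord_zpow f (n : ℤ)
  simpa using this

theorem Span_single_sum {m : ℕ} (x : F) (y : Fin m → F) (j : Fin m) (q : Polynomial k) :
    ∑ i, Polynomial.aeval x ((Pi.single j q : Fin m → Polynomial k) i) * y i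
      = Polynomial.aeval x q * y j := by
  rw [Finset.sum_eq_single j]
  · simp
  · intro i _ hij
    simp [Pi.single_eq_of_ne hij]
  · intro h
    exact absurd (Finset.mem_univ j) h

theorem Span_natDegree_single {m : ℕ} (j i : Fin m) (c : k) (a n : ℕ) (han : a ≤ n) :
    ((Pi.single j (Polynomial.C c * Polynomial.X ^ a) : Fin m → Polynomial k) i).natDegree ≤ n := by
  by_cases hij : i = j
  · subst hij
    simp only [Pi.single_eq_same]
    exact (Polynomial.natDegree_C_mul_X_pow_le c a).trans han
  · simp [Pi.single_eq_of_ne hij]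

theorem exists_expansion (h : BaseHyp k F) (P : Place k F) (s : Shape) (x : F) (y : Fin s.m → F)
    (hx : Reg P x) (hy : ∀ j, Reg P (y j)) (hy0 : ∀ j, y j ≠ 0)
    (ox : P.ord x = -(s.m : ℤ)) (oy : ∀ j, P.ord (y j) = -(s.b j : ℤ))
    (hH : ∀ n, PoleNum P n → ∃ (j : Fin s.m) (a : ℕ), n = a * s.m + s.b j)
    (n : ℕ) (f : F) (hf : Reg P f) (hn : -(n : ℤ) ≤ P.ord f) :
    ∃ p : Fin s.m → Polynomial k, f = ∑ j, Polynomial.aeval x (p j) * y j ∧
      ∀ j, (p j).natDegree ≤ n := by
  have hm : 0 < s.m := s.m_pos
  have hx0 : x ≠ 0 := by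
    rintro rfl
    rw [Place.ord_zero] at ox
    have : (0 : ℤ) < s.m := by exact_mod_cast hm
    omega
  induction n using Nat.strong_induction_on generalizing f with
  | _ n ih =>
    by_cases hf0 : f = 0
    · refine ⟨0, ?_, ?_⟩
      · simp [hf0]
      · intro j; simp
    have hle : P.ord f ≤ 0 := ord_le_zero_of_reg h hf0 hf
    obtain ⟨r, hr⟩ : ∃ r : ℕ, P.ord f = -(r : ℤ) := ⟨(-P.ord f).toNat, by omega⟩
    have hrn : r ≤ n := by omega
    obtain ⟨j, a, hra⟩ := hH r ⟨f, hf0, hf, hr⟩
    have har : a ≤ r := by
      have : a * 1 ≤ a * s.m := Nat.mul_le_mul_left a hm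
      omega
    set g : F := x ^ a * y j with hg
    have hg0 : g ≠ 0 := mul_ne_zero (pow_ne_zero _ hx0) (hy0 j)
    have og : P.ord g = P.ord f := by
      rw [hg, Place.ord_mul _ (pow_ne_zero _ hx0) (hy0 j), Span_ord_pow, ox, oy, hr, hra]
      push_cast
      ring
    have hgr : Reg P g := (hx.pow a).mul (hy j)
    have key : ∀ c : k, algebraMap k F c * g
        = ∑ i, Polynomial.aeval x
            ((Pi.single j (Polynomial.C c * Polynomial.X ^ a) : Fin s.m → Polynomial k) i) * y i := by
      intro c
      rw [Span_single_sum]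
      simp [hg, mul_assoc]
    obtain ⟨c, hc | hc⟩ := exists_lead h P hf0 hg0 og.symm
    · refine ⟨Pi.single j (Polynomial.C c * Polynomial.X ^ a), ?_, ?_⟩
      · rw [hc, key]
      · intro i
        exact Span_natDegree_single j i c a n (har.trans hrn)
    · set f' : F := f - algebraMap k F c * g with hf'
      have hf'r : Reg P f' := hf.sub ((Reg.algebraMap P c).mul hgr)
      by_cases hf'0 : f' = 0
      · refine ⟨Pi.single j (Polynomial.C c * Polynomial.X ^ a), ?_, ?_⟩
        · rw [← key]
          exact sub_eq_zero.mp hf'0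
        · intro i
          exact Span_natDegree_single j i c a n (har.trans hrn)
      have hle' : P.ord f' ≤ 0 := ord_le_zero_of_reg h hf'0 hf'r
      have hr0 : 0 < r := by
        by_contra hcon
        have : r = 0 := by omega
        subst this
        simp only [Nat.cast_zero, neg_zero] at hr
        omega
      obtain ⟨p', hp', hd'⟩ := ih (r - 1) (by omega) f' hf'r (by
        have : ((r - 1 : ℕ) : ℤ) = (r : ℤ) - 1 := by
          rw [Nat.cast_sub hr0]; simp
        rw [this]
        omega)
      refine ⟨p' + Pi.single j (Polynomial.C c * Polynomial.X ^ a), ?_, ?_⟩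
      · have : f = f' + algebraMap k F c * g := by rw [hf']; ring
        rw [this, key]
        conv_lhs => rw [hp']
        rw [← Finset.sum_add_distrib]
        refine Finset.sum_congr rfl fun i _ => ?_
        rw [Pi.add_apply, map_add, add_mul]
      · intro i
        rw [Pi.add_apply]
        refine (Polynomial.natDegree_add_le _ _).trans (max_le ?_ ?_)
        · exact (hd' i).trans (by omega)
        · exact Span_natDegree_single j i c a n (har.trans hrn)

end Fermat.Agent.S27.K
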