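import Fermat.Agent.S27.K.K1
import Fermat.Agent.S27.K.Shape
import Fermat.Agent.S27.K.Gaps
import Fermat.Agent.S27.K.Span

/-!
# Project S27, block K: existence of a one point model
-/

set_option autoImplicit false

namespace Fermat.Agent.S27.K

open AlgebraicCurve

universe u v

variable {k : Type u} {F : Type v} [Field k] [Field F] [Algebra k F]

theorem exists_model (h : BaseHyp k F) (P : Place k F) (n₀ : ℕ)
    (hn₀ : ∀ n, n₀ ≤ n → PoleNum P n) : ∃ s : Shape, Nonempty (OnePointModel k F s) := by
  classical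
  obtain ⟨s, hm, hb, hH⟩ := exists_shape (PoleNum P) (PoleNum.zero P)
    (fun a b ha hb => ha.add hb) n₀ hn₀
  obtain ⟨x, hx0, hx, ox⟩ := hm
  choose y' hy'0 hy' oy' using hb
  let y : Fin s.m → F := fun j => if j = s.zero then 1 else y' j
  have hy0 : ∀ j, y j ≠ 0 := by
    intro j
    by_cases hj : j = s.zero
    · simp [y, hj]
    · simpa [y, hj] using hy'0 j
  have hy : ∀ j, Reg P (y j) := by
    intro j
    by_cases hj : j = s.zero
    · simpa [y, hj] using Reg.one P
    · simpa [y, hj] using hy' j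
  have oy : ∀ j, P.ord (y j) = -(s.b j : ℤ) := by
    intro j
    by_cases hj : j = s.zero
    · have h0 : s.b j = 0 := s.b_zero j (by rw [hj]; rfl)
      have h1 : y j = 1 := if_pos hj
      rw [h1, h0]
      simp
    · simpa [y, hj] using oy' j
  have hexp := exists_expansion h P s x y hx hy hy0 ox oy hH
  have hmul : ∀ i j, ∃ p : Fin s.m → Polynomial k,
      y i * y j = ∑ l, Polynomial.aeval x (p l) * y l ∧ ∀ l, (p l).natDegree ≤ s.b i + s.b j := by
    intro i j
    refine hexp (s.b i + s.b j) (y i * y j) ((hy i).mul (hy j)) ?_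
    rw [P.ord_mul (hy0 i) (hy0 j), oy, oy]
    push_cast
    omega
  choose p hp hpdeg using hmul
  have hle : ∀ i, s.b i ≤ ∑ j, s.b j := fun i =>
    Finset.single_le_sum (f := fun j => s.b j) (fun _ _ => Nat.zero_le _) (Finset.mem_univ i)
  obtain ⟨c, hc⟩ := exists_table s p (by
    intro i j l
    have h1 := hpdeg i j l
    have h2 := hle i
    have h3 := hle j
    unfold Shape.T
    omega)
  refine ⟨s, ⟨{
    x := x
    y := y
    inf := P
    c := c
    ord_x := ox
    ord_y := oy
    y_zero := if_pos rfl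
    regular_x := hx
    regular_y := fun v hv j => hy j v hv
    span := ?_
    mul_table := ?_ }⟩⟩
  · intro f hf
    obtain ⟨q, hq, -⟩ := hexp (-P.ord f).toNat f hf (by omega)
    exact ⟨q, hq⟩
  · intro i j
    simp only [hc]
    exact hp i j

theorem stmtK2 (hRR : StmtRR.{u, v}) : StmtK2.{u, v} := by
  intro k F _ _ _ h
  obtain ⟨P⟩ := nonempty_place h
  obtain ⟨n₀, hn₀⟩ := exists_poleNum_bound h.toBaseHyp (hRR k F h) P
  exact exists_model h.toBaseHyp P n₀ hn₀

end Fermat.Agent.S27.K
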