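import Fermat.Agent.S27.Model
import Fermat.Agent.Lib.RR.Instances

/-!
# Project S27, block K1: the hypotheses of S27 give `CurveHyp`
-/

set_option autoImplicit false

namespace Fermat.Agent.S27.K

open AlgebraicCurve

universe u v

theorem stmtK1 : StmtK1.{u, v} := by
  intro K F _ _ _ _ _ _ _
  obtain ⟨B, γ, hdeg, hB⟩ := Lib.RR.IsFF.riemann (K := K) (F := F)
  refine { principal := inferInstance, residue := ?_, riemann := ⟨B, γ, hdeg, fun n => ?_⟩ }
  · intro v
    have : Module.Finite K v.ResidueField := IsCurveOver.finiteResidue v
    have : Algebra.IsIntegral K v.ResidueField := Algebra.IsIntegral.of_finite K v.ResidueField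
    exact (IsAlgClosed.algebraMap_bijective_of_isIntegral (k := K) (K := v.ResidueField)).2
  · have := hB n
    rw [map_nsmul, nsmul_eq_mul] at this
    exact this

end Fermat.Agent.S27.K
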