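import Fermat.Agent.S27.K.Defs
import Fermat.Agent.S24.PlaceDeg
import Fermat.Agent.Lib.RR.Basic

/-!
# Project S27, block K: basic facts under `BaseHyp`
-/

set_option autoImplicit false

namespace Fermat.Agent.S27.K

open AlgebraicCurve

universe u v

variable {k : Type u} {F : Type v} [Field k] [Field F] [Algebra k F]

theorem deg_eq_one (h : BaseHyp k F) (v : Place k F) : v.deg = 1 := by
  have hbij : Function.Bijective (algebraMap k v.ResidueField) :=
    ⟨(algebraMap k v.ResidueField).injective, h.residue v⟩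
  show Module.finrank k v.ResidueField = 1
  rw [← Module.finrank_self k]
  exact ((AlgEquiv.ofBijective (Algebra.ofId k v.ResidueField) hbij).toLinearEquiv.finrank_eq).symm

theorem degree_nonneg {D : Divisor k F} (hD : 0 ≤ D) : 0 ≤ Divisor.degree D := by
  rw [Lib.RR.Basic_degree_eq_sum]
  exact Finset.sum_nonneg fun v _ => mul_nonneg (hD v) (Int.natCast_nonneg _)

/-- `ord (f + g) ≥ n` for `n ≤ 0` (no non-vanishing hypotheses thanks to `ord 0 = 0`). -/
theorem le_ord_add (v : Place k F) {f g : F} {n : ℤ} (hn : n ≤ 0)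
    (hf : n ≤ v.ord f) (hg : n ≤ v.ord g) : n ≤ v.ord (f + g) :=
  Lib.RR.Basic_ord_add_ge v hn hf hg

theorem ord_mul_nonneg (v : Place k F) {f g : F} (hf : 0 ≤ v.ord f) (hg : 0 ≤ v.ord g) :
    0 ≤ v.ord (f * g) :=
  Lib.RR.Basic_ord_mul_nonneg v hf hg

theorem ord_neg (v : Place k F) (f : F) : v.ord (-f) = v.ord f := by
  simp [Place.ord]

theorem Reg.zero (P : Place k F) : Reg P (0 : F) := fun v _ => by simp

theorem Reg.one (P : Place k F) : Reg P (1 : F) := fun v _ => by simp

theorem Reg.algebraMap (P : Place k F) (c : k) : Reg P (algebraMap k F c) := fun v _ => by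
  rw [Lib.RR.Basic_ord_algebraMap]

theorem Reg.add {P : Place k F} {f g : F} (hf : Reg P f) (hg : Reg P g) : Reg P (f + g) :=
  fun v hv => le_ord_add v le_rfl (hf v hv) (hg v hv)

theorem Reg.neg {P : Place k F} {f : F} (hf : Reg P f) : Reg P (-f) := fun v hv => by
  rw [ord_neg]; exact hf v hv

theorem Reg.sub {P : Place k F} {f g : F} (hf : Reg P f) (hg : Reg P g) : Reg P (f - g) := by
  rw [sub_eq_add_neg]; exact hf.add hg.neg

theorem Reg.mul {P : Place k F} {f g : F} (hf : Reg P f) (hg : Reg P g) : Reg P (f * g) :=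
  fun v hv => ord_mul_nonneg v (hf v hv) (hg v hv)

theorem Reg.pow {P : Place k F} {f : F} (hf : Reg P f) (n : ℕ) : Reg P (f ^ n) := by
  induction n with
  | zero => simpa using Reg.one P
  | succ n ih => rw [pow_succ]; exact ih.mul hf

/-- a non-zero function which is regular outside `P` has no zero at `P`. -/
theorem ord_le_zero_of_reg (h : BaseHyp k F) {P : Place k F} {f : F} (hf : f ≠ 0)
    (hr : Reg P f) : P.ord f ≤ 0 := by
  classical
  obtain ⟨D, hD, hdeg⟩ := h.principal.exists_divisor f hf
  by_contra hcon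
  push Not at hcon
  have h1 : (0 : Divisor k F) ≤ D - Finsupp.single P 1 := by
    intro v
    simp only [Finsupp.coe_zero, Pi.zero_apply, Finsupp.coe_sub, Pi.sub_apply, hD,
      Finsupp.single_apply]
    split_ifs with hv
    · subst hv; omega
    · have := hr v (fun h => hv h.symm); omega
  have h2 := degree_nonneg h1
  rw [map_sub, hdeg, Divisor.degree_single, deg_eq_one h] at h2
  omega

/-- leading term lemma. -/
theorem exists_lead (h : BaseHyp k F) (P : Place k F) {f g : F} (hf : f ≠ 0) (hg : g ≠ 0)
    (hfg : P.ord f = P.ord g) :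
    ∃ c : k, f = algebraMap k F c * g ∨ P.ord f < P.ord (f - algebraMap k F c * g) := by
  have hu0 : f / g ≠ 0 := div_ne_zero hf hg
  have hord : P.ord (f / g) = 0 := by
    rw [div_eq_mul_inv, P.ord_mul hf (inv_ne_zero hg), P.ord_inv]; omega
  have hmem : f / g ∈ P.toValuationSubring := S24.mem_of_ord_nonneg P hu0 hord.ge
  obtain ⟨c, hc⟩ := h.residue P (IsLocalRing.residue _ ⟨f / g, hmem⟩)
  refine ⟨c, ?_⟩
  have hc' : IsLocalRing.residue _ (algebraMap k P.toValuationSubring c)
      = IsLocalRing.residue _ (⟨f / g, hmem⟩ : P.toValuationSubring) := hc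
  rw [eq_comm, ← sub_eq_zero, ← map_sub, IsLocalRing.residue_eq_zero_iff,
    S24.mem_maximalIdeal_iff] at hc'
  have hcoe : (((⟨f / g, hmem⟩ : P.toValuationSubring) - algebraMap k P.toValuationSubring c :
      P.toValuationSubring) : F) = f / g - algebraMap k F c := by
    push_cast
    rw [Place.coe_algebraMap]
  rw [hcoe] at hc'
  have hkey : f - algebraMap k F c * g = (f / g - algebraMap k F c) * g := by
    field_simp
  rcases hc' with h0 | h0
  · left
    have := hkey
    rw [h0, zero_mul, sub_eq_zero] at this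
    exact this
  · right
    have hne : f / g - algebraMap k F c ≠ 0 := by
      intro h1
      rw [h1] at h0
      simp at h0
    rw [hkey, P.ord_mul hne hg]
    omega

theorem ell_eq_zero_of_degree_neg (h : BaseHyp k F) {D : Divisor k F}
    (hD : Divisor.degree D < 0) : ell D = 0 := by
  have := h.principal
  have hbot : riemannRochSpace D = ⊥ := by
    rw [eq_bot_iff]
    intro f hf
    rcases Lib.RR.mem_L_iff.mp hf with h0 | h0
    · simp [h0]
    · exfalso
      have := degree_nonneg h0
      rw [map_add, Lib.RR.degree_divOf] at this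
      omega
  unfold ell
  rw [hbot]
  exact finrank_bot k F

end Fermat.Agent.S27.K
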