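import Fermat.Agent.S27.Model
import Fermat.Agent.S24.PlaceBasic

/-!
# Project S27, block K: definitions

`Reg P f`     : `f` is regular outside the place `P`.
`PoleNum P n` : `n` is a pole number at `P` (there is `f ≠ 0` regular outside `P` with a pole of
                order exactly `n` at `P`).
-/

set_option autoImplicit false

namespace Fermat.Agent.S27.K

open AlgebraicCurve

universe u v

variable {k : Type u} {F : Type v} [Field k] [Field F] [Algebra k F]

/-- `f` is regular outside `P`. -/
def Reg (P : Place k F) (f : F) : Prop := ∀ v : Place k F, v ≠ P → 0 ≤ v.ord f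

/-- `n` is a pole number at `P`. -/
def PoleNum (P : Place k F) (n : ℕ) : Prop :=
  ∃ f : F, f ≠ 0 ∧ Reg P f ∧ P.ord f = -(n : ℤ)

end Fermat.Agent.S27.K
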